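import Fermat.Agent.S55.G.Rec.Tow.H894.LocLink

/-!
# S55 / REC2-TOW / FR-INJ (helper894), part 4: the evaluation `ev_{q,g}` and its place

For a finite extension `F/ℚ` inside `ℚ̄`, a prime `q ∈ S` and `g ∈ G_ℚ`:

* `evHom F q hqS g : F ⊗ ℚ_S →+* ℚ̄_q`, `x ⊗ y ↦ ι_q (g⁻¹ x) · y_q`; `eq_evHom_of_tmul` (uniqueness);
* `evPlace F q hqS g : SPlace S F`, its kernel; `evEmb F q hqS g : HP.PlaceEmb S F (evPlace …) q`
  with `φ (mk a) = evHom a` and conjugating element `g`;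
* `primeOf_evPlace` : the rational prime below `evPlace` is `q`;
* `exists_smul_evPlace_eq` : every place above `q` is `Γ`-conjugate to `evPlace F q hqS g₀`
  (`Γ` any group acting on `F` through which every element of `G_ℚ` acts).
-/

set_option autoImplicit false
set_option linter.unusedSectionVars false
set_option linter.style.haveILetI false

open scoped TensorProduct

noncomputable section

namespace Fermat.Agent.S55.G.Rec.TOW.H894

open groupCohomology CategoryTheory Fermat.Agent.S55.Bridge.H175 Fermat.Agent.S55.G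
open Fermat.Agent.S55.G.Rec Fermat.Agent.S55.G.Rec.HP

local notation "Qb" => AlgebraicClosure ℚ
local notation "GQ" => (AlgebraicClosure ℚ ≃ₐ[ℚ] AlgebraicClosure ℚ)

section Ev

variable {S : Finset Nat.Primes} (F : IntermediateField ℚ Qb) [FiniteDimensional ℚ F]
  (q : ℕ) [hq : Fact q.Prime] (hqS : (⟨q, hq.out⟩ : Nat.Primes) ∈ S) (g : GQ)

/-- The `q`-th coordinate `ℚ_S → ℚ_q`. -/
def evQ : QS S →+* ℚ_[q] :=
  ((QS.proj S ⟨⟨q, hq.out⟩, hqS⟩ : QS S →ₐ[ℚ] Qq ⟨q, hq.out⟩) : QS S →+* Qq ⟨q, hq.out⟩)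

lemma evQ_apply (y : QS S) : evQ q hqS y = QS.toPi S y ⟨⟨q, hq.out⟩, hqS⟩ := rfl

/-- The embedding `F → ℚ̄_q`, `x ↦ ι_q (g⁻¹ x)`. -/
def evF : ↥F →+* PadicAlgCl q :=
  ((padicEmbedding q : Qb →ₐ[ℚ] PadicAlgCl q) : Qb →+* PadicAlgCl q).comp
    (((g⁻¹ : GQ) : Qb →+* Qb).comp (algebraMap ↥F Qb))

lemma evF_apply (x : F) : evF F q g x = padicEmbedding q (g⁻¹ (x : Qb)) := rfl

/-- **The evaluation** `ev_{q,g} : F ⊗ ℚ_S → ℚ̄_q`, `x ⊗ y ↦ ι_q (g⁻¹ x) · y_q`. -/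
def evHom : AS S ↥F →+* PadicAlgCl q :=
  ((Algebra.TensorProduct.lift (evF F q g).toRatAlgHom
    ((algebraMap ℚ_[q] (PadicAlgCl q)).comp (evQ q hqS)).toRatAlgHom
    (fun _ _ => Commute.all _ _) : AS S ↥F →ₐ[ℚ] PadicAlgCl q) : AS S ↥F →+* PadicAlgCl q)

lemma evHom_tmul (x : F) (y : QS S) :
    evHom F q hqS g (x ⊗ₜ[ℚ] y) =
      padicEmbedding q (g⁻¹ (x : Qb)) *
        algebraMap ℚ_[q] (PadicAlgCl q) (QS.toPi S y ⟨⟨q, hq.out⟩, hqS⟩) :=
  Algebra.TensorProduct.lift_tmul (evF F q g).toRatAlgHom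
    ((algebraMap ℚ_[q] (PadicAlgCl q)).comp (evQ q hqS)).toRatAlgHom
    (fun _ _ => Commute.all _ _) x y

/-- Uniqueness: a ring homomorphism with the `tmul` formula of `ev_{q,g}` is `evHom`. -/
lemma eq_evHom_of_tmul (ev : AS S ↥F →+* PadicAlgCl q)
    (h : ∀ (x : F) (y : QS S), ev (x ⊗ₜ[ℚ] y) =
      padicEmbedding q (g⁻¹ (x : Qb)) *
        algebraMap ℚ_[q] (PadicAlgCl q) (QS.toPi S y ⟨⟨q, hq.out⟩, hqS⟩)) :
    ev = evHom F q hqS g := by
  refine RingHom.ext fun a => ?_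
  induction a using TensorProduct.induction_on with
  | zero => rw [map_zero, map_zero]
  | tmul x y => rw [h, evHom_tmul]
  | add a b ha hb => rw [map_add, map_add, ha, hb]

lemma evHom_asDiag (x : F) :
    evHom F q hqS g (asDiag S ↥F x) = padicEmbedding q (g⁻¹ (x : Qb)) := by
  rw [asDiag_apply, evHom_tmul]
  have : QS.toPi S (1 : QS S) ⟨⟨q, hq.out⟩, hqS⟩ = 1 := rfl
  rw [this, map_one, mul_one]

lemma evHom_asIncl (y : QS S) :
    evHom F q hqS g (asIncl S ↥F y) =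
      algebraMap ℚ_[q] (PadicAlgCl q) (QS.toPi S y ⟨⟨q, hq.out⟩, hqS⟩) := by
  change evHom F q hqS g ((1 : F) ⊗ₜ[ℚ] y) = _
  rw [evHom_tmul]
  have : ((1 : F) : Qb) = 1 := rfl
  rw [this, map_one, map_one, one_mul]

/-- **The place of `ev_{q,g}`**: the kernel of `evHom`. -/
def evPlace : SPlace S ↥F where
  asIdeal := RingHom.ker (evHom F q hqS g)
  isMaximal := by
    haveI := PL0H713.isArtinianRing_AS S ↥F
    haveI : (RingHom.ker (evHom F q hqS g)).IsPrime := RingHom.ker_isPrime _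
    exact IsArtinianRing.isMaximal_of_isPrime _

lemma mem_evPlace_iff (a : AS S ↥F) :
    a ∈ (evPlace F q hqS g).asIdeal ↔ evHom F q hqS g a = 0 := Iff.rfl

/-- The embedding `F_𝔪 → ℚ̄_q` of the local field at `𝔪 = evPlace`. -/
def evPhi : LocField S (evPlace F q hqS g) →+* PadicAlgCl q :=
  RingHom.kerLift (evHom F q hqS g)

lemma evPhi_mk (a : AS S ↥F) :
    evPhi F q hqS g (LocField.mk S (evPlace F q hqS g) a) = evHom F q hqS g a := rfl

lemma evPhi_injective : Function.Injective (evPhi F q hqS g) :=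
  RingHom.kerLift_injective _

lemma evPhi_ofQS (y : QS S) :
    evPhi F q hqS g (LocField.ofQS S (evPlace F q hqS g) y) =
      algebraMap ℚ_[q] (PadicAlgCl q) (QS.toPi S y ⟨⟨q, hq.out⟩, hqS⟩) :=
  evHom_asIncl F q hqS g y

lemma evPhi_toLoc (x : F) :
    evPhi F q hqS g (toLoc S (evPlace F q hqS g) x) = padicEmbedding q (g⁻¹ (x : Qb)) :=
  evHom_asDiag F q hqS g x

lemma ofQS_single_one_evPlace :
    LocField.ofQS S (evPlace F q hqS g) (PL0H713.single S ⟨⟨q, hq.out⟩, hqS⟩ 1) = 1 := by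
  apply evPhi_injective F q hqS g
  rw [evPhi_ofQS, PL0H713.single_apply_same, map_one, map_one]

/-- The structure map `ℚ_q → F_𝔪` at `𝔪 = evPlace`. -/
def evIota : ℚ_[q] →+* LocField S (evPlace F q hqS g) where
  toFun z := LocField.ofQS S (evPlace F q hqS g) (PL0H713.single S ⟨⟨q, hq.out⟩, hqS⟩ z)
  map_one' := ofQS_single_one_evPlace F q hqS g
  map_mul' x y := by rw [PL0H713.single_mul, map_mul]
  map_zero' := by rw [PL0H713.single_zero, map_zero]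
  map_add' x y := by rw [PL0H713.single_add, map_add]

lemma evPhi_evIota (z : ℚ_[q]) :
    evPhi F q hqS g (evIota F q hqS g z) = algebraMap ℚ_[q] (PadicAlgCl q) z := by
  change evPhi F q hqS g (LocField.ofQS S (evPlace F q hqS g) _) = _
  rw [evPhi_ofQS, PL0H713.single_apply_same]

/-- **The embedded model of `evPlace`**, with conjugating element `g` and `φ ∘ mk = evHom`. -/
def evEmb : PlaceEmb S F (evPlace F q hqS g) q where
  g := g
  φ := evPhi F q hqS g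
  ι₀ := evIota F q hqS g
  φ_toLoc := evPhi_toLoc F q hqS g
  φ_ι₀ := evPhi_evIota F q hqS g
  ofQS_mem y := ⟨QS.toPi S y ⟨⟨q, hq.out⟩, hqS⟩, by
    apply evPhi_injective F q hqS g
    rw [evPhi_evIota, evPhi_ofQS]⟩
  ι₀_mem z := ⟨PL0H713.single S ⟨⟨q, hq.out⟩, hqS⟩ z, rfl⟩

@[simp] lemma evEmb_g : (evEmb F q hqS g).g = g := rfl

lemma evEmb_φ_mk (a : AS S ↥F) :
    (evEmb F q hqS g).φ (LocField.mk S (evPlace F q hqS g) a) = evHom F q hqS g a := rfl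

end Ev

section PrimeOf

variable {S : Finset Nat.Primes} {L : Type} [Field L] [NumberField L]

/-- The prime below a place is characterised by `ofQS (single q 1) = 1`. -/
lemma primeOf_eq_of_single (𝔪 : SPlace S L) (q : S)
    (h : LocField.ofQS S 𝔪 (PL0H713.single S q 1) = 1) : PL0H713.primeOf S L 𝔪 = q := by
  by_contra hne
  have h1 := PL0H713.ofQS_single_primeOf S L 𝔪
  have h2 : PL0H713.single S (PL0H713.primeOf S L 𝔪) (1 : Qq (PL0H713.primeOf S L 𝔪).1) *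
      PL0H713.single S q 1 = 0 := by
    rw [PL0H713.mul_single_one, PL0H713.single_apply_ne S _ q (Ne.symm hne), PL0H713.single_zero]
  have h3 := congrArg (LocField.ofQS S 𝔪) h2
  rw [map_mul, h1, h, map_zero, mul_one] at h3
  exact one_ne_zero h3

end PrimeOf

section Trans

variable {S : Finset Nat.Primes} (F : IntermediateField ℚ Qb) [FiniteDimensional ℚ F]
  [Normal ℚ F]

lemma primeOf_evPlace (q : ℕ) [hq : Fact q.Prime] (hqS : (⟨q, hq.out⟩ : Nat.Primes) ∈ S)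
    (g : GQ) :
    PL0H713.primeOf S ↥F (evPlace F q hqS g) = ⟨⟨q, hq.out⟩, hqS⟩ :=
  primeOf_eq_of_single _ _ (ofQS_single_one_evPlace F q hqS g)

variable (Γ : Type) [Group Γ] [MulSemiringAction Γ ↥F]

/-- Change of the conjugating element: `ev_{q,g'} = ev_{q,g} ∘ (γ ⊗ 1)` if `γ ∈ Γ` acts on `F` as
`g g'⁻¹`. -/
lemma evHom_asAut (q : ℕ) [hq : Fact q.Prime] (hqS : (⟨q, hq.out⟩ : Nat.Primes) ∈ S)
    (g g' : GQ) (γ : Γ) (hγ : ∀ x : F, ((γ • x : F) : Qb) = g ((g'⁻¹ : GQ) (x : Qb)))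
    (a : AS S ↥F) :
    evHom F q hqS g (asAut S Γ ↥F γ a) = evHom F q hqS g' a := by
  induction a using TensorProduct.induction_on with
  | zero => rw [map_zero, map_zero, map_zero]
  | tmul x y =>
    rw [asAut_tmul, evHom_tmul, evHom_tmul, hγ]
    congr 2
    exact AlgEquiv.symm_apply_apply g _
  | add a b ha hb => rw [map_add, map_add, map_add, ha, hb]

/-- The places `evPlace … g` and `evPlace … g'` are conjugate. -/
lemma smul_evPlace (q : ℕ) [hq : Fact q.Prime] (hqS : (⟨q, hq.out⟩ : Nat.Primes) ∈ S)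
    (g g' : GQ) (γ : Γ) (hγ : ∀ x : F, ((γ • x : F) : Qb) = g ((g'⁻¹ : GQ) (x : Qb))) :
    sPlaceSMul S Γ γ⁻¹ (evPlace F q hqS g) = evPlace F q hqS g' := by
  refine MaximalSpectrum.ext (Ideal.ext fun a => ?_)
  rw [mem_sPlaceSMul_iff, inv_inv, mem_evPlace_iff, mem_evPlace_iff,
    evHom_asAut F Γ q hqS g g' γ hγ]

/-- Every place above `q` is of the form `evPlace … g'`. -/
lemma exists_eq_evPlace (q : ℕ) [hq : Fact q.Prime] (hqS : (⟨q, hq.out⟩ : Nat.Primes) ∈ S)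
    (𝔪 : SPlace S ↥F) (h𝔪 : (((PL0H713.primeOf S ↥F 𝔪).1 : Nat.Primes) : ℕ) = q) :
    ∃ g' : GQ, 𝔪 = evPlace F q hqS g' := by
  subst h𝔪
  let alg : Algebra ℚ_[((PL0H713.primeOf S ↥F 𝔪).1 : ℕ)] (LocField S 𝔪) :=
    PL0H713.algQq S ↥F 𝔪
  have hfin : Module.Finite ℚ_[((PL0H713.primeOf S ↥F 𝔪).1 : ℕ)] (LocField S 𝔪) :=
    PL0H713.finite_locField S ↥F 𝔪
  have halg : Algebra.IsAlgebraic ℚ_[((PL0H713.primeOf S ↥F 𝔪).1 : ℕ)] (LocField S 𝔪) :=
    Algebra.IsAlgebraic.of_finite _ _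
  let φ₀ : LocField S 𝔪 →ₐ[ℚ_[((PL0H713.primeOf S ↥F 𝔪).1 : ℕ)]]
      PadicAlgCl ((PL0H713.primeOf S ↥F 𝔪).1 : ℕ) := IsAlgClosed.lift
  obtain ⟨g', hg'⟩ := exists_conj_of_ringHom F ((PL0H713.primeOf S ↥F 𝔪).1 : ℕ)
    ((φ₀ : LocField S 𝔪 →+* _).comp (toLoc S 𝔪))
  refine ⟨g', ?_⟩
  have hev : (φ₀ : LocField S 𝔪 →+* _).comp (LocField.mk S 𝔪) =
      evHom F ((PL0H713.primeOf S ↥F 𝔪).1 : ℕ) hqS g' := by
    apply eq_evHom_of_tmul
    intro x y
    change φ₀ (LocField.mk S 𝔪 (x ⊗ₜ[ℚ] y)) = _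
    rw [PL0H713.mk_tmul, map_mul, PL0H713.ofQS_eq]
    congr 1
    · exact hg' x
    · exact φ₀.commutes _
  refine MaximalSpectrum.ext (Ideal.ext fun a => ?_)
  rw [mem_evPlace_iff, ← hev, ← LocField.mk_eq_zero_iff]
  change _ ↔ φ₀ (LocField.mk S 𝔪 a) = 0
  rw [map_eq_zero_iff φ₀ φ₀.injective]

/-- **Transitivity.**  If every element of `G_ℚ` acts on `F` through `Γ`, then every place above
`q` is `Γ`-conjugate to `evPlace F q hqS g₀`. -/
theorem exists_smul_evPlace_eq (hΓ : ∀ σ : GQ, ∃ γ : Γ, ∀ x : F, ((γ • x : F) : Qb) = σ (x : Qb))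
    (q : ℕ) [hq : Fact q.Prime] (hqS : (⟨q, hq.out⟩ : Nat.Primes) ∈ S) (g₀ : GQ)
    (𝔪 : SPlace S ↥F) (h𝔪 : (PL0H713.primeOf S ↥F 𝔪).1 = ⟨q, hq.out⟩) :
    ∃ γ : Γ, sPlaceSMul S Γ γ (evPlace F q hqS g₀) = 𝔪 := by
  obtain ⟨g', rfl⟩ := exists_eq_evPlace F q hqS 𝔪 (congrArg (fun r : Nat.Primes => (r : ℕ)) h𝔪)
  obtain ⟨γ, hγ⟩ := hΓ (g₀ * g'⁻¹)
  exact ⟨γ⁻¹, smul_evPlace F Γ q hqS g₀ g' γ hγ⟩

end Trans

end Fermat.Agent.S55.G.Rec.TOW.H894
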