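import Fermat.Agent.S55.G.Rec.Tow.H894.AtPrime

/-!
# S55 / REC2-TOW / FR-INJ (helper894), part 2: the `σ`-free core of `injAt`

`eq_zero_of_isAt_of_locMapJ` : let `y ∈ H²(Γ, J_S(L))` be concentrated at `r` and let `𝔪₀` be a
place such that every place above `r` is `Γ`-conjugate to `𝔪₀`.  If the localisation of `y` at
`𝔪₀` vanishes, then `y = 0`.  (Shapiro `G.ShapiroJSpec` + `locMapJ_eq_zero_of_isAt`.)
-/

set_option autoImplicit false

open CategoryTheory groupCohomology
open scoped TensorProduct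

noncomputable section

namespace Fermat.Agent.S55.G.Rec.TOW.H894

open Fermat.Agent.S55 Fermat.Agent.S55.G

/-- Orbit representatives containing a prescribed element, for an action on a finite type. -/
lemma exists_orbit_reps {Γ X : Type} [Group Γ] [MulAction Γ X] [Finite X] (x₀ : X) :
    ∃ R : Finset X, x₀ ∈ R ∧ ∀ x : X, ∃! r : X, r ∈ R ∧ ∃ g : Γ, g • r = x := by
  classical
  haveI := Fintype.ofFinite X
  let rep : X → X := fun x => if x ∈ MulAction.orbit Γ x₀ then x₀ else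
    (Quotient.out (Quotient.mk (MulAction.orbitRel Γ X) x))
  have hrep_mem : ∀ x, rep x ∈ MulAction.orbit Γ x := by
    intro x
    by_cases hx : x ∈ MulAction.orbit Γ x₀
    · simp only [rep, if_pos hx]
      exact (MulAction.orbitRel Γ X).symm hx
    · simp only [rep, if_neg hx]
      have : (MulAction.orbitRel Γ X) (Quotient.out (Quotient.mk (MulAction.orbitRel Γ X) x)) x :=
        Quotient.exact (Quotient.out_eq _)
      exact this
  have hrep_eq : ∀ x x', x' ∈ MulAction.orbit Γ x → rep x' = rep x := by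
    intro x x' hx'
    have horb : MulAction.orbit Γ x' = MulAction.orbit Γ x := MulAction.orbit_eq_iff.2 hx'
    have hq : Quotient.mk (MulAction.orbitRel Γ X) x' = Quotient.mk (MulAction.orbitRel Γ X) x :=
      Quotient.sound hx'
    by_cases hx : x ∈ MulAction.orbit Γ x₀
    · have hx'' : x' ∈ MulAction.orbit Γ x₀ := by
        have h1 : MulAction.orbit Γ x = MulAction.orbit Γ x₀ := MulAction.orbit_eq_iff.2 hx
        rw [← h1]; exact hx'
      simp only [rep, if_pos hx, if_pos hx'']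
    · have hx'' : x' ∉ MulAction.orbit Γ x₀ := by
        intro h2
        apply hx
        have h1 : MulAction.orbit Γ x' = MulAction.orbit Γ x₀ := MulAction.orbit_eq_iff.2 h2
        rw [← h1, horb]
        exact MulAction.mem_orbit_self x
      simp only [rep, if_neg hx, if_neg hx'', hq]
  refine ⟨Finset.univ.image rep, ?_, fun x => ⟨rep x, ⟨?_, ?_⟩, ?_⟩⟩
  · refine Finset.mem_image.2 ⟨x₀, Finset.mem_univ _, ?_⟩
    simp only [rep, if_pos (MulAction.mem_orbit_self x₀)]
  · exact Finset.mem_image.2 ⟨x, Finset.mem_univ _, rfl⟩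
  · obtain ⟨g, hg⟩ := hrep_mem x
    exact ⟨g⁻¹, by rw [← hg, inv_smul_smul]⟩
  · rintro r ⟨hr, g, hg⟩
    obtain ⟨x', -, rfl⟩ := Finset.mem_image.1 hr
    have h1 : x ∈ MulAction.orbit Γ (rep x') := ⟨g, hg⟩
    have h2 : rep x' ∈ MulAction.orbit Γ x' := hrep_mem x'
    have h3 : x ∈ MulAction.orbit Γ x' := by
      have : MulAction.orbit Γ (rep x') = MulAction.orbit Γ x' := MulAction.orbit_eq_iff.2 h2
      rw [← this]; exact h1
    exact (hrep_eq x' x h3).symm

variable {S : Finset Nat.Primes} {L : Type} [Field L] [NumberField L]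
  (Γ : Type) [Group Γ] [Finite Γ] [MulSemiringAction Γ L]

/-- **Core of `injAt`** (no invariant map involved).  A class concentrated at `r` whose
localisation at ONE place `𝔪₀` vanishes is zero, provided all places above `r` are conjugate
to `𝔪₀`. -/
theorem eq_zero_of_isAt_of_locMapJ (hSh : G.ShapiroJSpec) (r : Nat.Primes)
    (y : groupCohomology (JRep Γ S L) 2) (hy : IsAt S Γ L r y) (𝔪₀ : SPlace S L)
    (htrans : ∀ 𝔪 : SPlace S L, (PL0H713.primeOf S L 𝔪).1 = r →
      ∃ g : Γ, sPlaceSMul S Γ g 𝔪₀ = 𝔪)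
    (h0 : (locMapJ S Γ 𝔪₀ 2).hom y = 0) : y = 0 := by
  haveI : Finite (SPlace S L) := PL0H713.finite_sPlace S L
  letI : MulAction Γ (SPlace S L) := sPlaceAction S Γ L
  obtain ⟨R, h𝔪₀, hR⟩ := exists_orbit_reps (Γ := Γ) 𝔪₀
  have hbij := hSh S Γ L R hR 2
  apply hbij.1
  funext ρ
  change (locMapJ S Γ ρ.1 2).hom y = (locMapJ S Γ ρ.1 2).hom 0
  rw [map_zero]
  by_cases hρ : (PL0H713.primeOf S L ρ.1).1 = r
  · obtain ⟨g, hg⟩ := htrans ρ.1 hρ
    have h1 : ρ.1 = 𝔪₀ := by
      obtain ⟨r₁, -, huniq⟩ := hR ρ.1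
      have e1 : ρ.1 = r₁ := huniq ρ.1 ⟨ρ.2, 1, (sPlaceAction S Γ L).one_smul ρ.1⟩
      have e2 : 𝔪₀ = r₁ := huniq 𝔪₀ ⟨h𝔪₀, g, hg⟩
      rw [e1, e2]
    rw [h1]
    exact h0
  · exact locMapJ_eq_zero_of_isAt Γ r y hy ρ.1 hρ

end Fermat.Agent.S55.G.Rec.TOW.H894
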