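import Fermat.Agent.S55.G.Rec.Tow.Defs
import Fermat.Agent.S55.G.PL0H713

/-!
# S55 / REC2-TOW / FR-INJ (helper894), part 1: classes concentrated at `r`

For `S' ⊆ S` and a place `𝔪` of `L ⊗ ℚ_S` whose rational prime lies in `S'`, the projection
`L ⊗ ℚ_S → L_𝔪` factors through `asRes : L ⊗ ℚ_S → L ⊗ ℚ_{S'}`.  Consequently a class
`y ∈ H²(Γ, J_S(L))` whose image in `H²(Γ, J_{S'}(L))` vanishes has trivial localisation at `𝔪`:

* `locMapJ_eq_zero_of_jRes` (general `S' ⊆ S`);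
* `locMapJ_eq_zero_of_isAt` (`S' = S.erase r`: `IsAt S Γ L r y`, prime of `𝔪` different from `r`).
-/

set_option autoImplicit false

open CategoryTheory groupCohomology
open scoped TensorProduct

noncomputable section

namespace Fermat.Agent.S55.G.Rec.TOW.H894

open Fermat.Agent.S55 Fermat.Agent.S55.G

variable {S S' : Finset Nat.Primes} (h : S' ⊆ S) {L : Type} [Field L] [NumberField L]
  (𝔪 : SPlace S L) (hq : (PL0H713.primeOf S L 𝔪).1 ∈ S')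

/-- The `ℚ`-algebra structure of `L_𝔪` (local to this file). -/
abbrev locAlg : Algebra ℚ (LocField S 𝔪) :=
  ((LocField.mk S 𝔪).comp (algebraMap ℚ (AS S L))).toAlgebra

/-- The ring homomorphism `ℚ_{S'} → L_𝔪` (projection to the prime below `𝔪`). -/
def ofQSsub : QS S' →+* LocField S 𝔪 :=
  (PL0H713.ofQq S L 𝔪).comp
    ((QS.proj S' ⟨(PL0H713.primeOf S L 𝔪).1, hq⟩ : QS S' →ₐ[ℚ] _) : QS S' →+* _)

lemma ofQSsub_res (y : QS S) :
    ofQSsub 𝔪 hq (QS.res h y) = LocField.ofQS S 𝔪 y := by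
  rw [PL0H713.ofQS_eq]
  rfl

/-- The factorisation `L ⊗ ℚ_{S'} → L_𝔪` of the projection `L ⊗ ℚ_S → L_𝔪`. -/
def locOfSub : AS S' L →+* LocField S 𝔪 :=
  letI := locAlg 𝔪
  ((Algebra.TensorProduct.lift (toLoc S 𝔪).toRatAlgHom (ofQSsub 𝔪 hq).toRatAlgHom
    (fun _ _ => Commute.all _ _) : AS S' L →ₐ[ℚ] LocField S 𝔪) : AS S' L →+* LocField S 𝔪)

lemma locOfSub_tmul (x : L) (y : QS S') :
    locOfSub 𝔪 hq (x ⊗ₜ[ℚ] y) = toLoc S 𝔪 x * ofQSsub 𝔪 hq y := by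
  letI := locAlg 𝔪
  exact Algebra.TensorProduct.lift_tmul (toLoc S 𝔪).toRatAlgHom (ofQSsub 𝔪 hq).toRatAlgHom
    (fun _ _ => Commute.all _ _) x y

lemma locOfSub_asRes (a : AS S L) :
    locOfSub 𝔪 hq (asRes h L a) = LocField.mk S 𝔪 a := by
  induction a using TensorProduct.induction_on with
  | zero => simp
  | tmul x y =>
    rw [asRes_tmul, locOfSub_tmul, ofQSsub_res, PL0H713.mk_tmul]
  | add a b ha hb => rw [map_add, map_add, map_add, ha, hb]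

variable (Γ : Type) [Group Γ] [MulSemiringAction Γ L]

lemma locAut_ofQS (d : decomp S Γ 𝔪) (y : QS S) :
    locAut S Γ 𝔪 d (LocField.ofQS S 𝔪 y) = LocField.ofQS S 𝔪 y := by
  change locAut S Γ 𝔪 d (LocField.mk S 𝔪 (asIncl S L y)) = LocField.mk S 𝔪 (asIncl S L y)
  rw [locAut_mk, asAut_asIncl]

lemma locAut_ofQSsub (d : decomp S Γ 𝔪) (y : QS S') :
    locAut S Γ 𝔪 d (ofQSsub 𝔪 hq y) = ofQSsub 𝔪 hq y := by
  change locAut S Γ 𝔪 d (PL0H713.ofQq S L 𝔪 _) = PL0H713.ofQq S L 𝔪 _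
  rw [PL0H713.ofQq_apply, locAut_ofQS]

lemma locOfSub_asAut (d : decomp S Γ 𝔪) (a : AS S' L) :
    locOfSub 𝔪 hq (asAut S' Γ L (d : Γ) a) = locAut S Γ 𝔪 d (locOfSub 𝔪 hq a) := by
  induction a using TensorProduct.induction_on with
  | zero => simp
  | tmul x y =>
    rw [asAut_tmul, locOfSub_tmul, locOfSub_tmul, map_mul, locAut_toLoc, locAut_ofQSsub]
  | add a b ha hb => rw [map_add, map_add, map_add, map_add, ha, hb]

/-- The factorisation on units, additively: `J_{S'}(L) → L_𝔪ˣ`. -/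
def jOfSub : Additive (AS S' L)ˣ →+ Additive (LocField S 𝔪)ˣ :=
  MonoidHom.toAdditive (Units.map (locOfSub 𝔪 hq : AS S' L →* LocField S 𝔪))

lemma jOfSub_jRes (u : Additive (AS S L)ˣ) :
    jOfSub 𝔪 hq (jRes h L u) = jToLoc S 𝔪 u := by
  apply Additive.toMul.injective
  apply Units.ext
  exact locOfSub_asRes h 𝔪 hq _

lemma jOfSub_equivariant (d : decomp S Γ 𝔪) (u : Additive (AS S' L)ˣ) :
    jOfSub 𝔪 hq (jRepr Γ S' L (d : Γ) u) = locRepr S Γ 𝔪 d (jOfSub 𝔪 hq u) := by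
  apply Additive.toMul.injective
  apply Units.ext
  exact locOfSub_asAut 𝔪 hq Γ d _

/-- **Factorisation.**  If the image of `y ∈ H²(Γ, J_S(L))` in `H²(Γ, J_{S'}(L))` vanishes
(`S' ⊆ S`), then `y` is locally trivial at every place `𝔪` whose rational prime lies in `S'`. -/
theorem locMapJ_eq_zero_of_jRes (hq' : (PL0H713.primeOf S L 𝔪).1 ∈ S')
    (y : groupCohomology (JRep Γ S L) 2)
    (hy : (T.coeffMap (jResRepHom Γ L h) 2).hom y = 0) :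
    (locMapJ S Γ 𝔪 2).hom y = 0 := by
  have hq := hq'
  revert hy
  refine H2_induction_on y (fun yc hy => ?_)
  have h1 : (H2π (JRep Γ S' L)).hom
      ((mapCocycles₂ (MonoidHom.id Γ) (jResRepHom Γ L h)).hom yc) = 0 := by
    rw [← hy]
    exact (congr($(H2π_comp_map (MonoidHom.id Γ) (jResRepHom Γ L h)) yc)).symm
  rw [H2π_eq_zero_iff] at h1
  obtain ⟨b₀, hb₀⟩ := h1
  obtain ⟨b, hb'⟩ : ∃ b : Γ → Additive (AS S' L)ˣ, ∀ g g' : Γ,
      jRepr Γ S' L g (b g') - b (g * g') + b g =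
        jRes h L ((yc : Γ × Γ → Additive (AS S L)ˣ) (g, g')) := by
    refine ⟨b₀, fun g g' => ?_⟩
    have h2 := congrFun hb₀ (g, g')
    rw [d₁₂_hom_apply] at h2
    exact h2
  have hgoal : (locMapJ S Γ 𝔪 2).hom ((H2π (JRep Γ S L)).hom yc) =
      (H2π (LocRep S Γ 𝔪)).hom
        ((mapCocycles₂ (decomp S Γ 𝔪).subtype (jToLocRepHom S Γ 𝔪)).hom yc) :=
    congr($(H2π_comp_map (decomp S Γ 𝔪).subtype (jToLocRepHom S Γ 𝔪)) yc)
  rw [hgoal, H2π_eq_zero_iff]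
  refine ⟨fun d => jOfSub 𝔪 hq (b (d : Γ)), funext fun p => ?_⟩
  obtain ⟨d, d'⟩ := p
  change locRepr S Γ 𝔪 d (jOfSub 𝔪 hq (b (d' : Γ))) - jOfSub 𝔪 hq (b ((d : Γ) * (d' : Γ))) +
    jOfSub 𝔪 hq (b (d : Γ)) = jToLoc S 𝔪 ((yc : Γ × Γ → Additive (AS S L)ˣ) ((d : Γ), (d' : Γ)))
  have h3 : jOfSub 𝔪 hq (jRepr Γ S' L (d : Γ) (b (d' : Γ)) - b ((d : Γ) * (d' : Γ)) + b (d : Γ)) =
      jOfSub 𝔪 hq (jRes h L ((yc : Γ × Γ → Additive (AS S L)ˣ) ((d : Γ), (d' : Γ)))) :=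
    congrArg (jOfSub 𝔪 hq) (hb' (d : Γ) (d' : Γ))
  have h5 : locRepr S Γ 𝔪 d (jOfSub 𝔪 hq (b (d' : Γ))) - jOfSub 𝔪 hq (b ((d : Γ) * (d' : Γ))) +
      jOfSub 𝔪 hq (b (d : Γ)) =
      jOfSub 𝔪 hq (jRepr Γ S' L (d : Γ) (b (d' : Γ)) - b ((d : Γ) * (d' : Γ)) + b (d : Γ)) := by
    rw [map_add, map_sub, jOfSub_equivariant]
  exact h5.trans (h3.trans (jOfSub_jRes h 𝔪 hq _))

/-- **Classes concentrated at `r`** are locally trivial at every place not above `r`. -/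
theorem locMapJ_eq_zero_of_isAt (r : Nat.Primes) (y : groupCohomology (JRep Γ S L) 2)
    (hy : IsAt S Γ L r y) (𝔪 : SPlace S L) (h𝔪 : (PL0H713.primeOf S L 𝔪).1 ≠ r) :
    (locMapJ S Γ 𝔪 2).hom y = 0 :=
  locMapJ_eq_zero_of_jRes (Finset.erase_subset r S) 𝔪 Γ
    (Finset.mem_erase.2 ⟨h𝔪, (PL0H713.primeOf S L 𝔪).2⟩) y hy

end Fermat.Agent.S55.G.Rec.TOW.H894
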