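import Fermat.Agent.S55.G.Rec.HP.LocalGlue

/-!
# S55 / REC2-TOW / FR-INJ (helper894), part 3: the local link for `J_S`, abstract group

Generalisation of helper473's `HP.localGlue` (`HP/LocalGlue.lean`) in two directions:

* the finite group is an ABSTRACT `Γ` acting on the level field `F` (e.g. `M.Gal = G_ℚ ⧸ U_M` of a
  Tower level, or a subgroup of it), linked to a subgroup `V ≤ G_{ℚ_q}` by a homomorphism
  `ρ : V →* Γ` with `ρ τ = (g · loc τ · g⁻¹)|_F` (`LocLink`);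
* the coefficients are `J_S(F) = (F ⊗ ℚ_S)ˣ` instead of `Fˣ`.

`locMapJ_eq_zero_of_link` : if the cochain `(τ, τ') ↦ φ (mk (yc (ρ τ, ρ τ')))` on `V` with values
in `ℚ̄_qˣ` is a level coboundary, then the intrinsic localisation `locMapJ S Γ 𝔪 2 [yc]`
vanishes.
-/

set_option autoImplicit false
set_option linter.unusedSectionVars false
set_option linter.style.haveILetI false

noncomputable section

namespace Fermat.Agent.S55.G.Rec.TOW.H894

open groupCohomology CategoryTheory Fermat.Agent.S55.Bridge.H175 Fermat.Agent.S55.G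
open Fermat.Agent.S55.G.Rec Fermat.Agent.S55.G.Rec.HP

local notation "Qb" => AlgebraicClosure ℚ
local notation "GQ" => (AlgebraicClosure ℚ ≃ₐ[ℚ] AlgebraicClosure ℚ)

/-- A link between a subgroup `V` of the local Galois group and an abstract group `Γ` acting on
the level field `F`, relative to an embedded place `P = (φ, g)`:
`ρ τ` acts on `F` as `g · loc τ · g⁻¹`, and every `τ` such that `g · loc τ · g⁻¹` acts on `F` as
an element `d` of `Γ` lies in `V` with `ρ τ = d`. -/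
structure LocLink {S : Finset Nat.Primes} {F : IntermediateField ℚ Qb}
    {𝔪 : SPlace S ↥F} {q : ℕ} [Fact q.Prime] (P : PlaceEmb S F 𝔪 q)
    (Γ : Type) [Group Γ] [MulSemiringAction Γ ↥F]
    (V : Subgroup (PadicAlgCl q ≃ₐ[ℚ_[q]] PadicAlgCl q)) where
  /-- the homomorphism `τ ↦ (g · loc τ · g⁻¹)|_F` -/
  ρ : ↥V →* Γ
  smul_coe : ∀ (τ : ↥V) (x : F),
    ((ρ τ • x : F) : Qb) = P.g (localGaloisToGlobal q τ (P.g⁻¹ (x : Qb)))
  full : ∀ (τ : PadicAlgCl q ≃ₐ[ℚ_[q]] PadicAlgCl q) (d : Γ),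
    (∀ x : F, P.g (localGaloisToGlobal q τ (P.g⁻¹ (x : Qb))) = ((d • x : F) : Qb)) →
      ∃ hτ : τ ∈ V, ρ ⟨τ, hτ⟩ = d

section Claims

variable {S : Finset Nat.Primes} {F : IntermediateField ℚ Qb} [FiniteDimensional ℚ F]
  [Normal ℚ F] {𝔪 : SPlace S ↥F} {q : ℕ} [Fact q.Prime] {P : PlaceEmb S F 𝔪 q}
  {Γ : Type} [Group Γ] [MulSemiringAction Γ ↥F]
  {V : Subgroup (PadicAlgCl q ≃ₐ[ℚ_[q]] PadicAlgCl q)} (K : LocLink P Γ V)

lemma LocLink.φ_toLoc_rho (τ : ↥V) (x : F) :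
    P.φ (toLoc S 𝔪 (K.ρ τ • x)) =
      (τ : PadicAlgCl q ≃ₐ[ℚ_[q]] PadicAlgCl q) (P.φ (toLoc S 𝔪 x)) := by
  rw [P.φ_toLoc, P.φ_toLoc, K.smul_coe, ← padicEmbedding_localGaloisToGlobal]
  congr 1
  exact AlgEquiv.symm_apply_apply P.g _

lemma LocLink.φ_mk_asAut (τ : ↥V) (a : AS S ↥F) :
    P.φ (LocField.mk S 𝔪 (asAut S Γ ↥F (K.ρ τ) a)) =
      (τ : PadicAlgCl q ≃ₐ[ℚ_[q]] PadicAlgCl q) (P.φ (LocField.mk S 𝔪 a)) := by
  induction a using TensorProduct.induction_on with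
  | zero => simp
  | tmul x y =>
    rw [asAut_tmul, PL0H713.mk_tmul, PL0H713.mk_tmul, map_mul, map_mul, map_mul,
      K.φ_toLoc_rho, P.φ_ofQS_fixed]
  | add a b ha hb => simp only [map_add, ha, hb]

lemma LocLink.rho_mem_decomp (τ : ↥V) : K.ρ τ ∈ decomp S Γ 𝔪 := by
  rw [mem_decomp_iff]
  refine MaximalSpectrum.ext (Ideal.ext fun a => ?_)
  rw [mem_sPlaceSMul_iff, ← LocField.mk_eq_zero_iff, ← LocField.mk_eq_zero_iff,
    ← map_eq_zero_iff P.φ P.φ_injective, ← map_eq_zero_iff P.φ P.φ_injective,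
    ← map_inv, K.φ_mk_asAut]
  exact map_eq_zero_iff _ (AlgEquiv.injective _)

/-- `ρ` with values in the decomposition group. -/
def LocLink.rhoD : ↥V →* ↥(decomp S Γ 𝔪) :=
  K.ρ.codRestrict _ K.rho_mem_decomp

@[simp] lemma LocLink.rhoD_coe (τ : ↥V) : ((K.rhoD τ : ↥(decomp S Γ 𝔪)) : Γ) = K.ρ τ := rfl

/-- `φ` intertwines the action of `ρ τ` on `F_𝔪` with the action of `τ` on `ℚ̄_q`. -/
lemma LocLink.φ_locAut (τ : ↥V) (y : LocField S 𝔪) :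
    P.φ (locAut S Γ 𝔪 (K.rhoD τ) y) =
      (τ : PadicAlgCl q ≃ₐ[ℚ_[q]] PadicAlgCl q) (P.φ y) := by
  obtain ⟨a, rfl⟩ := LocField.mk_surjective S 𝔪 y
  rw [locAut_mk]
  exact K.φ_mk_asAut τ a

/-- Elements of `Gal(ℚ̄_q / F_q)` lie in `V` and in the kernel of `ρ`. -/
lemma LocLink.rhoD_of_fixing
    (τ : PadicAlgCl q ≃ₐ[ℚ_[q]] PadicAlgCl q) (hτ : τ ∈ (localLevel q F).fixingSubgroup) :
    ∃ h : τ ∈ V, K.rhoD ⟨τ, h⟩ = 1 := by
  have h1 : localGaloisToGlobal q τ ∈ F.fixingSubgroup :=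
    (mem_fixingSubgroup_localLevel_iff q F τ).1 hτ
  have h2 : ∀ x : F, P.g (localGaloisToGlobal q τ (P.g⁻¹ (x : Qb))) = (((1 : Γ) • x : F) : Qb) := by
    intro x
    have hx : P.g⁻¹ (x : Qb) ∈ F := apply_mem_of_normal F _ x.2
    rw [(IntermediateField.mem_fixingSubgroup_iff F _).1 h1 _ hx, one_smul]
    exact AlgEquiv.apply_symm_apply P.g _
  obtain ⟨hV, h3⟩ := K.full τ 1 h2
  exact ⟨hV, Subtype.ext h3⟩

/-- The elements of `ℚ̄_q` fixed by `ker ρ` lie in `φ(F_𝔪)`. -/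
lemma LocLink.mem_range_φ_of_fixed (a : PadicAlgCl q)
    (h : ∀ τ : ↥V, K.rhoD τ = 1 → (τ : PadicAlgCl q ≃ₐ[ℚ_[q]] PadicAlgCl q) a = a) :
    a ∈ Set.range P.φ := by
  have := isGalois_padicAlgCl473 q
  apply P.localLevel_le_range
  rw [← InfiniteGalois.fixedField_fixingSubgroup (localLevel q F)]
  rintro ⟨τ, hτ⟩
  obtain ⟨hV, h1⟩ := K.rhoD_of_fixing τ hτ
  exact h ⟨τ, hV⟩ h1

/-- `ρ : V → decomp 𝔪` is surjective. -/
lemma LocLink.rhoD_surjective : Function.Surjective K.rhoD := by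
  intro σ
  have hnorm := normal_padicAlgCl q
  letI a1 : Algebra ℚ_[q] (LocField S 𝔪) := P.ι₀.toAlgebra
  letI a2 : Algebra (LocField S 𝔪) (PadicAlgCl q) := P.φ.toAlgebra
  haveI : IsScalarTower ℚ_[q] (LocField S 𝔪) (PadicAlgCl q) :=
    IsScalarTower.of_algebraMap_eq (fun z => (P.φ_ι₀ z).symm)
  let ψ : LocField S 𝔪 →ₐ[ℚ_[q]] PadicAlgCl q :=
    { toRingHom := P.φ.comp ((locAut S Γ 𝔪 σ : LocField S 𝔪 ≃+* LocField S 𝔪) :
        LocField S 𝔪 →+* LocField S 𝔪)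
      commutes' := by
        intro z
        change P.φ (locAut S Γ 𝔪 σ (P.ι₀ z)) = _
        obtain ⟨y, hy⟩ := P.ι₀_mem z
        have h1 : locAut S Γ 𝔪 σ (LocField.ofQS S 𝔪 y) = LocField.ofQS S 𝔪 y := by
          change locAut S Γ 𝔪 σ (LocField.mk S 𝔪 (asIncl S ↥F y)) = _
          rw [locAut_mk, asAut_asIncl]
          rfl
        rw [hy, h1, ← hy, P.φ_ι₀] }
  let τ : PadicAlgCl q ≃ₐ[ℚ_[q]] PadicAlgCl q :=
    AlgEquiv.ofBijective (ψ.liftNormal (PadicAlgCl q))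
      (AlgHom.normal_bijective ℚ_[q] (PadicAlgCl q) (PadicAlgCl q) _)
  have hτ : ∀ y : LocField S 𝔪, τ (P.φ y) = P.φ (locAut S Γ 𝔪 σ y) := by
    intro y
    exact ψ.liftNormal_commutes (PadicAlgCl q) y
  -- the action of `g · loc τ · g⁻¹` on `F`
  have h2 : ∀ x : F, P.g (localGaloisToGlobal q τ (P.g⁻¹ (x : Qb))) =
      (((σ : Γ) • x : F) : Qb) := by
    intro x
    have e1 : padicEmbedding q (localGaloisToGlobal q τ (P.g⁻¹ (x : Qb))) =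
        padicEmbedding q (P.g⁻¹ ((((σ : Γ) • x : F)) : Qb)) := by
      rw [padicEmbedding_localGaloisToGlobal, ← P.φ_toLoc, hτ, locAut_toLoc, P.φ_toLoc]
    have e2 := (padicEmbedding q).injective e1
    rw [e2]
    exact AlgEquiv.apply_symm_apply P.g _
  obtain ⟨hV, h3⟩ := K.full τ (σ : Γ) h2
  exact ⟨⟨τ, hV⟩, Subtype.ext h3⟩

/-- Equivariance of `φU`. -/
lemma LocLink.φU_equivariant (τ : ↥V) (y : Additive (LocField S 𝔪)ˣ) :
    P.φU ((LocRep S Γ 𝔪).ρ (K.rhoD τ) y) = (lModOn q V).ρ τ (P.φU y) := by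
  apply Additive.toMul.injective
  apply Units.ext
  change P.φ (locAut S Γ 𝔪 (K.rhoD τ) ((y.toMul : (LocField S 𝔪)ˣ))) =
    (τ : PadicAlgCl q ≃ₐ[ℚ_[q]] PadicAlgCl q) (P.φ ((y.toMul : (LocField S 𝔪)ˣ)))
  exact K.φ_locAut τ _

lemma LocLink.φU_range (a : Additive (PadicAlgCl q)ˣ)
    (h : ∀ τ : ↥V, K.rhoD τ = 1 → (lModOn q V).ρ τ a = a) :
    ∃ y, P.φU y = a := by
  have h' : ∀ τ : ↥V, K.rhoD τ = 1 →
      (τ : PadicAlgCl q ≃ₐ[ℚ_[q]] PadicAlgCl q) ((a.toMul : (PadicAlgCl q)ˣ) : PadicAlgCl q) =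
        ((a.toMul : (PadicAlgCl q)ˣ) : PadicAlgCl q) := by
    intro τ hτ
    have := congrArg (fun z : Additive (PadicAlgCl q)ˣ => ((z.toMul : (PadicAlgCl q)ˣ) :
      PadicAlgCl q)) (h τ hτ)
    exact this
  obtain ⟨y₀, hy₀⟩ := K.mem_range_φ_of_fixed _ h'
  have hy₀0 : y₀ ≠ 0 := by
    rintro rfl
    rw [map_zero] at hy₀
    exact Units.ne_zero (a.toMul) hy₀.symm
  refine ⟨Additive.ofMul (Units.mk0 y₀ hy₀0), ?_⟩
  apply Additive.toMul.injective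
  apply Units.ext
  exact hy₀

/-- The cochain on `V` with values in `ℚ̄_qˣ` attached to a 2-cochain of `Γ` with values in
`J_S(F)`: `(τ, τ') ↦ φ (mk (yc (ρ τ, ρ τ')))`. -/
def LocLink.evCochain (yc : Γ × Γ → Additive (AS S ↥F)ˣ) : ↥V × ↥V → lModOn q V :=
  fun p => P.φU (jToLoc S 𝔪 (yc (K.ρ p.1, K.ρ p.2)))

/-- **Local link for `J_S`.**  If the cochain `(τ, τ') ↦ φ (mk (yc (ρ τ, ρ τ')))` is a level
coboundary on `V`, the intrinsic localisation of `[yc]` at `𝔪` vanishes. -/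
theorem LocLink.locMapJ_eq_zero (yc : cocycles₂ (JRep Γ S ↥F))
    (hcob : K.evCochain (yc : Γ × Γ → Additive (AS S ↥F)ˣ) ∈
      levelCoboundaries₂ (lHom q V) (lModOn q V)) :
    (locMapJ S Γ 𝔪 2).hom ((H2π (JRep Γ S ↥F)).hom yc) = 0 := by
  -- the intrinsic local cocycle
  set floc : cocycles₂ (LocRep S Γ 𝔪) :=
    (mapCocycles₂ (decomp S Γ 𝔪).subtype (jToLocRepHom S Γ 𝔪)).hom yc with hfloc
  have hfloc_apply : ∀ d d' : ↥(decomp S Γ 𝔪),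
      (floc : ↥(decomp S Γ 𝔪) × ↥(decomp S Γ 𝔪) → _) (d, d') =
        jToLoc S 𝔪 ((yc : Γ × Γ → Additive (AS S ↥F)ˣ) ((d : Γ), (d' : Γ))) := by
    intro d d'
    rfl
  have hgoal : (locMapJ S Γ 𝔪 2).hom ((H2π (JRep Γ S ↥F)).hom yc) =
      (H2π (LocRep S Γ 𝔪)).hom floc :=
    congr($(H2π_comp_map (decomp S Γ 𝔪).subtype (jToLocRepHom S Γ 𝔪)) yc)
  rw [hgoal, H2π_eq_zero_iff]
  -- the absolute local coboundary
  rw [mem_levelCoboundaries₂_iff] at hcob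
  obtain ⟨b, hblev, hb⟩ := hcob
  have hb' : ∀ τ τ' : ↥V,
      (lModOn q V).ρ τ (b τ') - b (τ * τ') + b τ =
        P.φU ((floc : ↥(decomp S Γ 𝔪) × ↥(decomp S Γ 𝔪) → _) (K.rhoD τ, K.rhoD τ')) := by
    intro τ τ'
    have h1 := congrFun hb (τ, τ')
    rw [d₁₂_hom_apply] at h1
    rw [h1, hfloc_apply]
    rfl
  -- Hilbert 90 on `ker ρ`
  set e : (lModOn q V).V :=
    P.φU ((floc : ↥(decomp S Γ 𝔪) × ↥(decomp S Γ 𝔪) → _) (1, 1)) with he
  have hH90 : ∃ a : (lModOn q V).V, ∀ n : ↥V, K.rhoD n = 1 →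
      b n - e = (lModOn q V).ρ n a - a := by
    obtain ⟨Fb, hFbfin, hFb⟩ := hblev
    have hnQ : Normal ℚ Qb := normal_Qb
    have hgal := isGalois_padicAlgCl473 q
    let F₁ : IntermediateField ℚ Qb := IntermediateField.normalClosure ℚ ↥(F ⊔ Fb) Qb
    have hle : F ⊔ Fb ≤ F₁ := IntermediateField.le_normalClosure _
    have hF₁fin : FiniteDimensional ℚ F₁ := normalClosure.is_finiteDimensional ..
    have hF₁norm : Normal ℚ F₁ := normalClosure.normal ..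
    let E' : IntermediateField ℚ_[q] (PadicAlgCl q) := localLevel q F₁
    have hE'fin : FiniteDimensional ℚ_[q] E' := finiteDimensional_localLevel q F₁
    have hE'norm : Normal ℚ_[q] E' := normal_localLevel q F₁
    let V₀ : Subgroup (PadicAlgCl q ≃ₐ[ℚ_[q]] PadicAlgCl q) :=
      (K.rhoD.ker).map V.subtype
    have hE' : E'.fixingSubgroup ≤ V₀ := by
      intro τ hτ
      have h1 : τ ∈ (localLevel q F).fixingSubgroup :=
        IntermediateField.fixingSubgroup_antitone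
          (localLevel_mono (le_sup_left.trans hle)) hτ
      obtain ⟨hV, h2⟩ := K.rhoD_of_fixing τ h1
      exact ⟨⟨τ, hV⟩, h2, rfl⟩
    have hV₀mem : ∀ n : ↥V₀, (n : PadicAlgCl q ≃ₐ[ℚ_[q]] PadicAlgCl q) ∈ V := by
      intro n
      obtain ⟨x, -, hx⟩ := n.2
      rw [← hx]
      exact x.2
    have hV₀ker : ∀ n : ↥V₀, K.rhoD ⟨n, hV₀mem n⟩ = 1 := by
      intro n
      obtain ⟨x, hxk, hx⟩ := n.2
      have : x = ⟨n, hV₀mem n⟩ := Subtype.ext hx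
      rw [← this]
      exact hxk
    have hne : ∀ n : ↥V₀, (lModOn q V).ρ ⟨n, hV₀mem n⟩ e = e := by
      intro n
      rw [he, ← K.φU_equivariant, hV₀ker n, map_one]
      rfl
    let β : ↥V₀ → (PadicAlgCl q)ˣ := fun n =>
      Additive.toMul ((b ⟨n, hV₀mem n⟩ - e : (lModOn q V).V) :
        Additive (PadicAlgCl q)ˣ)
    have hcoc : ∀ n n' : ↥V₀, β (n * n') =
        (n : PadicAlgCl q ≃ₐ[ℚ_[q]] PadicAlgCl q) • β n' * β n := by
      intro n n'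
      have h1 := hb' ⟨n, hV₀mem n⟩ ⟨n', hV₀mem n'⟩
      rw [hV₀ker n, hV₀ker n', ← he] at h1
      apply Additive.ofMul.injective
      change b (⟨n, hV₀mem n⟩ * ⟨n', hV₀mem n'⟩) - e =
        (lModOn q V).ρ ⟨n, hV₀mem n⟩ (b ⟨n', hV₀mem n'⟩ - e) +
          (b ⟨n, hV₀mem n⟩ - e)
      rw [map_sub, hne n]
      have h2 : b (⟨n, hV₀mem n⟩ * ⟨n', hV₀mem n'⟩) =
          (lModOn q V).ρ ⟨n, hV₀mem n⟩ (b ⟨n', hV₀mem n'⟩) +
            b ⟨n, hV₀mem n⟩ - e := by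
        rw [← h1]; abel
      rw [h2]; abel
    have hconst : ∀ n s : ↥V₀,
        (s : PadicAlgCl q ≃ₐ[ℚ_[q]] PadicAlgCl q) ∈ E'.fixingSubgroup → β (n * s) = β n := by
      intro n s hs
      have h1 : localGaloisToGlobal q (s : PadicAlgCl q ≃ₐ[ℚ_[q]] PadicAlgCl q) ∈
          Fb.fixingSubgroup :=
        IntermediateField.fixingSubgroup_antitone (le_sup_right.trans hle)
          ((mem_fixingSubgroup_localLevel_iff q F₁ _).1 hs)
      have h2 := hFb ⟨n, hV₀mem n⟩ ⟨s, hV₀mem s⟩ h1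
      change Additive.toMul ((b (⟨n, hV₀mem n⟩ * ⟨s, hV₀mem s⟩) - e :
        (lModOn q V).V) : Additive (PadicAlgCl q)ˣ) = _
      rw [h2]
      rfl
    obtain ⟨a, ha⟩ := exists_hilbert90_level V₀ E' hE' β hcoc hconst
    refine ⟨(Additive.ofMul a : Additive (PadicAlgCl q)ˣ), fun n hn => ?_⟩
    have hnV₀ : (n : PadicAlgCl q ≃ₐ[ℚ_[q]] PadicAlgCl q) ∈ V₀ := ⟨n, hn, rfl⟩
    have h3 := ha ⟨n, hnV₀⟩
    apply Additive.toMul.injective
    exact h3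
  obtain ⟨a, ha⟩ := hH90
  exact mem_coboundaries₂_of_infl (lModOn q V) (LocRep S Γ 𝔪) K.rhoD
    K.rhoD_surjective P.φU P.φU_injective K.φU_equivariant K.φU_range
    floc floc.2 b hb' a ha

/-- `ρ` is trivial on the elements whose global image fixes the level `F`. -/
lemma LocLink.rhoD_eq_one_of_lHom (τ : ↥V) (hτ : lHom q V τ ∈ F.fixingSubgroup) :
    K.rhoD τ = 1 := by
  obtain ⟨_, h⟩ := K.rhoD_of_fixing (τ : PadicAlgCl q ≃ₐ[ℚ_[q]] PadicAlgCl q)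
    ((mem_fixingSubgroup_localLevel_iff q F _).2 hτ)
  exact h

/-- **Local link for `J_S`, converse** (inflation of a coboundary).  If the intrinsic localisation
of `[yc]` at `𝔪` vanishes, the cochain `(τ, τ') ↦ φ (mk (yc (ρ τ, ρ τ')))` is a level
coboundary on `V`. -/
theorem LocLink.evCochain_mem_levelCoboundaries₂ (yc : cocycles₂ (JRep Γ S ↥F))
    (h0 : (locMapJ S Γ 𝔪 2).hom ((H2π (JRep Γ S ↥F)).hom yc) = 0) :
    K.evCochain (yc : Γ × Γ → Additive (AS S ↥F)ˣ) ∈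
      levelCoboundaries₂ (lHom q V) (lModOn q V) := by
  have hgoal : (locMapJ S Γ 𝔪 2).hom ((H2π (JRep Γ S ↥F)).hom yc) =
      (H2π (LocRep S Γ 𝔪)).hom
        ((mapCocycles₂ (decomp S Γ 𝔪).subtype (jToLocRepHom S Γ 𝔪)).hom yc) :=
    congr($(H2π_comp_map (decomp S Γ 𝔪).subtype (jToLocRepHom S Γ 𝔪)) yc)
  rw [hgoal, H2π_eq_zero_iff] at h0
  obtain ⟨b₀, hb₀⟩ := h0
  obtain ⟨b, hb⟩ : ∃ b : ↥(decomp S Γ 𝔪) → Additive (LocField S 𝔪)ˣ,
      ∀ d d' : ↥(decomp S Γ 𝔪), locRepr S Γ 𝔪 d (b d') - b (d * d') + b d =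
        jToLoc S 𝔪 ((yc : Γ × Γ → Additive (AS S ↥F)ˣ) ((d : Γ), (d' : Γ))) := by
    refine ⟨b₀, fun d d' => ?_⟩
    have h2 := congrFun hb₀ (d, d')
    rw [d₁₂_hom_apply] at h2
    exact h2
  rw [mem_levelCoboundaries₂_iff]
  set β : ↥V → (lModOn q V).V := fun τ => P.φU (b (K.rhoD τ)) with hβ
  refine ⟨β, ⟨F, inferInstance, fun τ s hs => ?_⟩, ?_⟩
  · simp only [hβ, map_mul, K.rhoD_eq_one_of_lHom s hs, mul_one]
  · funext p
    obtain ⟨τ, τ'⟩ := p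
    rw [d₁₂_hom_apply]
    have e1 : (lModOn q V).ρ τ (β τ') =
        (P.φU (locRepr S Γ 𝔪 (K.rhoD τ) (b (K.rhoD τ'))) : (lModOn q V).V) :=
      (K.φU_equivariant τ _).symm
    have e2 : β (τ * τ') = (P.φU (b (K.rhoD τ * K.rhoD τ')) : (lModOn q V).V) := by
      simp only [hβ, map_mul]
    have e3 : P.φU (locRepr S Γ 𝔪 (K.rhoD τ) (b (K.rhoD τ'))) -
        P.φU (b (K.rhoD τ * K.rhoD τ')) + P.φU (b (K.rhoD τ)) =
        P.φU (locRepr S Γ 𝔪 (K.rhoD τ) (b (K.rhoD τ')) - b (K.rhoD τ * K.rhoD τ') +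
          b (K.rhoD τ)) := by
      rw [map_add, map_sub]
    change (lModOn q V).ρ τ (β τ') - β (τ * τ') + β τ = _
    rw [e1, e2]
    exact e3.trans (congrArg P.φU (hb (K.rhoD τ) (K.rhoD τ')))

end Claims

end Fermat.Agent.S55.G.Rec.TOW.H894
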